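/-
S19lib / G / ValBasics  (helper5, block FF-G)

Elementary facts about a valuation subring `A` of `ℚ̄` lying over a rational prime `ℓ`:
* integers prime to `ℓ` are units of `A`; a rational number is in `A` iff it is in `ℤ_(ℓ)`;
* every element of `ℚ̄` has bounded denominator: `ℓ ^ b * c ∈ A` for some `b`;
* `A` has rank one: a power of every non-unit is divisible by `ℓ`
  (hence by any non-zero element).
-/
import Mathlib
import Fermat.Agent.S19lib.Iface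
import Fermat.Agent.S56lib.TWSel.Places

set_option autoImplicit false

noncomputable section

namespace Fermat.Agent.S19lib.G

open Fermat.Agent.Helper5 Fermat.Agent.S56lib.TWSel Fermat.Agent.S19lib
open scoped Pointwise

variable {A : ValuationSubring Qbar} {ℓ : ℕ}

/-! ### integers -/

lemma val_prime_lt_one (hA : A.LiesOverPrime ℓ) : A.valuation ((ℓ : ℕ) : Qbar) < 1 :=
  (A.mem_nonunits_iff).1 hA

lemma natCast_prime_mem (hA : A.LiesOverPrime ℓ) : ((ℓ : ℕ) : Qbar) ∈ A :=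
  (A.valuation_le_one_iff _).1 (val_prime_lt_one hA).le

lemma val_intCast_le_one (n : ℤ) : A.valuation ((n : ℤ) : Qbar) ≤ 1 :=
  (A.valuation_le_one_iff _).2 (intCast_mem A n)

lemma natCast_prime_ne_zero (hℓ : ℓ.Prime) : ((ℓ : ℕ) : Qbar) ≠ 0 := by
  exact_mod_cast hℓ.ne_zero

lemma val_prime_ne_zero (hℓ : ℓ.Prime) : A.valuation ((ℓ : ℕ) : Qbar) ≠ 0 :=
  (A.valuation.ne_zero_iff).2 (natCast_prime_ne_zero hℓ)

/-- an integer prime to `ℓ` has valuation one -/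
lemma val_intCast_eq_one (hℓ : ℓ.Prime) (hA : A.LiesOverPrime ℓ) {n : ℤ}
    (hn : ¬ ((ℓ : ℕ) : ℤ) ∣ n) : A.valuation ((n : ℤ) : Qbar) = 1 := by
  have hcop : IsCoprime n ((ℓ : ℕ) : ℤ) := by
    rw [isCoprime_comm]
    exact (Nat.prime_iff_prime_int.mp hℓ).coprime_iff_not_dvd.2 hn
  obtain ⟨x, y, hxy⟩ := hcop
  have h1 : ((x : ℤ) : Qbar) * (n : Qbar) = 1 - (y : Qbar) * ((ℓ : ℕ) : Qbar) := by
    have := congrArg (fun z : ℤ => (z : Qbar)) hxy
    push_cast at this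
    linear_combination this
  have h2 : A.valuation ((y : Qbar) * ((ℓ : ℕ) : Qbar)) < 1 := by
    rw [map_mul]
    calc A.valuation (y : Qbar) * A.valuation ((ℓ : ℕ) : Qbar)
        ≤ 1 * A.valuation ((ℓ : ℕ) : Qbar) := by
          gcongr
          exact val_intCast_le_one y
      _ < 1 := by rw [one_mul]; exact val_prime_lt_one hA
  have h3 : A.valuation ((x : Qbar) * (n : Qbar)) = 1 := by
    rw [h1]
    exact A.valuation.map_one_sub_of_lt h2
  rw [map_mul] at h3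
  refine le_antisymm (val_intCast_le_one n) ?_
  calc (1 : A.ValueGroup) = A.valuation (x : Qbar) * A.valuation (n : Qbar) := h3.symm
    _ ≤ 1 * A.valuation (n : Qbar) := by
        gcongr
        exact val_intCast_le_one x
    _ = A.valuation (n : Qbar) := one_mul _

/-- an integer divisible by `ℓ` has valuation at most that of `ℓ` -/
lemma val_intCast_le_of_dvd {n : ℤ} (hn : ((ℓ : ℕ) : ℤ) ∣ n) :
    A.valuation ((n : ℤ) : Qbar) ≤ A.valuation ((ℓ : ℕ) : Qbar) := by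
  obtain ⟨m, rfl⟩ := hn
  push_cast
  rw [map_mul]
  calc A.valuation ((ℓ : ℕ) : Qbar) * A.valuation (m : Qbar)
      ≤ A.valuation ((ℓ : ℕ) : Qbar) * 1 := by
        gcongr
        exact val_intCast_le_one m
    _ = _ := mul_one _

/-- the inverse of an integer prime to `ℓ` lies in `A` -/
lemma inv_intCast_mem (hℓ : ℓ.Prime) (hA : A.LiesOverPrime ℓ) {n : ℤ}
    (hn : ¬ ((ℓ : ℕ) : ℤ) ∣ n) : ((n : ℤ) : Qbar)⁻¹ ∈ A := by
  rw [← A.valuation_le_one_iff, map_inv₀, val_intCast_eq_one hℓ hA hn, inv_one]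

/-! ### rational numbers -/

/-- a rational number lies in `A` iff it lies in `ℤ_(ℓ)` -/
theorem algebraMap_rat_mem_iff (hℓ : ℓ.Prime) (hA : A.LiesOverPrime ℓ) (q : ℚ) :
    algebraMap ℚ Qbar q ∈ A ↔ q ∈ GaloisRep.ratLocalizedAt ℓ := by
  have hq : algebraMap ℚ Qbar q = ((q.num : ℤ) : Qbar) * (((q.den : ℕ) : ℤ) : Qbar)⁻¹ := by
    rw [eq_ratCast]
    conv_lhs => rw [Rat.cast_def]
    rw [div_eq_mul_inv]
    push_cast
    rfl
  change _ ↔ q.den.Coprime ℓ
  constructor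
  · intro h
    by_contra hcop
    rw [Nat.coprime_comm, hℓ.coprime_iff_not_dvd, not_not] at hcop
    have hden : ((ℓ : ℕ) : ℤ) ∣ ((q.den : ℕ) : ℤ) := by exact_mod_cast hcop
    have hnum : ¬ ((ℓ : ℕ) : ℤ) ∣ q.num := by
      intro hd
      have h1 : (ℓ : ℕ) ∣ q.num.natAbs := by
        rw [← Int.natCast_dvd]; exact hd
      have h2 := Nat.dvd_gcd h1 hcop
      rw [q.reduced.gcd_eq_one] at h2
      exact hℓ.one_lt.ne' (Nat.dvd_one.1 h2)
    have hv1 := val_intCast_eq_one hℓ hA hnum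
    have hv2 : A.valuation ((((q.den : ℕ) : ℤ) : Qbar)) < 1 :=
      lt_of_le_of_lt (val_intCast_le_of_dvd hden) (val_prime_lt_one hA)
    have hden0 : ((((q.den : ℕ) : ℤ) : Qbar)) ≠ 0 := by
      have := q.den_ne_zero
      exact_mod_cast this
    have h3 : ((q.num : ℤ) : Qbar) = algebraMap ℚ Qbar q * (((q.den : ℕ) : ℤ) : Qbar) := by
      rw [hq, mul_assoc, inv_mul_cancel₀ hden0, mul_one]
    have h4 : A.valuation ((q.num : ℤ) : Qbar) < 1 := by
      rw [h3, map_mul]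
      calc A.valuation (algebraMap ℚ Qbar q) * A.valuation ((((q.den : ℕ) : ℤ) : Qbar))
          ≤ 1 * A.valuation ((((q.den : ℕ) : ℤ) : Qbar)) := by
            gcongr
            exact (A.valuation_le_one_iff _).2 h
        _ < 1 := by rw [one_mul]; exact hv2
    rw [hv1] at h4
    exact lt_irrefl _ h4
  · intro hcop
    rw [hq]
    refine A.mul_mem _ _ (intCast_mem A _) (inv_intCast_mem hℓ hA ?_)
    intro hd
    have h1 : (ℓ : ℕ) ∣ q.den := by exact_mod_cast hd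
    have h2 := Nat.dvd_gcd h1 (dvd_refl ℓ)
    rw [Nat.Coprime] at hcop
    rw [hcop] at h2
    exact hℓ.one_lt.ne' (Nat.dvd_one.1 h2)

/-- `ℤ_(ℓ) ⊆ A` -/
theorem RQ_le (hℓ : ℓ.Prime) (hA : A.LiesOverPrime ℓ) {x : Qbar} (hx : x ∈ RQ ℓ) : x ∈ A := by
  obtain ⟨q, hq, rfl⟩ := hx
  exact (algebraMap_rat_mem_iff hℓ hA q).2 hq

/-- elements of `ℤ_(ℓ)` are Galois-fixed -/
theorem RQ_fixed {x : Qbar} (hx : x ∈ RQ ℓ) (σ : GQ) : σ x = x := by
  obtain ⟨q, _, rfl⟩ := hx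
  exact σ.commutes q

theorem RQ_le_A0 (hℓ : ℓ.Prime) (hA : A.LiesOverPrime ℓ) {x : Qbar} (hx : x ∈ RQ ℓ) :
    x ∈ A0 A := ⟨RQ_le hℓ hA hx, fun σ _ => RQ_fixed hx σ⟩

theorem RQ_le_AD (hℓ : ℓ.Prime) (hA : A.LiesOverPrime ℓ) {x : Qbar} (hx : x ∈ RQ ℓ) :
    x ∈ AD A := ⟨RQ_le hℓ hA hx, fun σ _ => RQ_fixed hx σ⟩

/-- a Galois-fixed element of `A` lies in `ℤ_(ℓ)` -/
theorem mem_RQ_of_fixed (hℓ : ℓ.Prime) (hA : A.LiesOverPrime ℓ) {x : Qbar} (hx : x ∈ A)
    (hfix : ∀ σ : GQ, σ x = x) : x ∈ RQ ℓ := by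
  have h1 : x ∈ Set.range (algebraMap ℚ Qbar) := by
    rw [InfiniteGalois.mem_range_algebraMap_iff_fixed]
    exact hfix
  obtain ⟨q, rfl⟩ := h1
  exact ⟨q, (algebraMap_rat_mem_iff hℓ hA q).1 hx, rfl⟩

/-! ### bounded denominators -/

/-- every element of `ℚ̄` becomes integral at `A` after multiplication by a power of `ℓ` -/
theorem exists_pow_mul_mem (hℓ : ℓ.Prime) (hA : A.LiesOverPrime ℓ) (c : Qbar) :
    ∃ b : ℕ, ((ℓ : ℕ) : Qbar) ^ b * c ∈ A := by
  have halg : IsAlgebraic ℤ c :=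
    (IsFractionRing.isAlgebraic_iff ℤ ℚ Qbar).2 (Algebra.IsAlgebraic.isAlgebraic c)
  obtain ⟨m, hm0, hint⟩ := halg.exists_integral_multiple
  have hfin : FiniteMultiplicity ((ℓ : ℕ) : ℤ) m := by
    rw [Int.finiteMultiplicity_iff]
    refine ⟨?_, hm0⟩
    rw [Int.natAbs_natCast]
    exact hℓ.one_lt.ne'
  obtain ⟨m', hm', hnd⟩ := hfin.exists_eq_pow_mul_and_not_dvd
  refine ⟨multiplicity ((ℓ : ℕ) : ℤ) m, ?_⟩
  have h1 : (m • c : Qbar) ∈ A := zbar_mem A ⟨_, hint⟩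
  have h2 : (m • c : Qbar) = ((m' : ℤ) : Qbar) * (((ℓ : ℕ) : Qbar) ^ multiplicity ((ℓ : ℕ) : ℤ) m * c) := by
    rw [zsmul_eq_mul]
    conv_lhs => rw [hm']
    push_cast
    ring
  have hm'0 : ((m' : ℤ) : Qbar) ≠ 0 := by
    intro h
    have : m' = 0 := by exact_mod_cast h
    rw [this] at hnd
    exact hnd (dvd_zero _)
  have h3 : ((ℓ : ℕ) : Qbar) ^ multiplicity ((ℓ : ℕ) : ℤ) m * c
      = ((m' : ℤ) : Qbar)⁻¹ * (m • c : Qbar) := by
    rw [h2, ← mul_assoc, inv_mul_cancel₀ hm'0, one_mul]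
  rw [h3]
  exact A.mul_mem _ _ (inv_intCast_mem hℓ hA hnd) h1

/-- a uniform bound for finitely many elements -/
theorem exists_pow_mul_mem_finite (hℓ : ℓ.Prime) (hA : A.LiesOverPrime ℓ) {ι : Type*} [Finite ι]
    (c : ι → Qbar) : ∃ b : ℕ, ∀ i, ((ℓ : ℕ) : Qbar) ^ b * c i ∈ A := by
  classical
  have := Fintype.ofFinite ι
  choose b hb using fun i => exists_pow_mul_mem hℓ hA (c i)
  refine ⟨Finset.univ.sup b, fun i => ?_⟩
  have hle : b i ≤ Finset.univ.sup b := Finset.le_sup (Finset.mem_univ i)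
  obtain ⟨k, hk⟩ := Nat.exists_eq_add_of_le hle
  rw [hk, pow_add, mul_comm (_ ^ b i) _, mul_assoc]
  exact A.mul_mem _ _ (A.pow_mem (natCast_prime_mem hA) k) (hb i)

/-! ### rank one -/

/-- **rank one**: a power of a non-unit of `A` is divisible by `ℓ` (valuation form) -/
theorem exists_pow_val_le (hℓ : ℓ.Prime) (hA : A.LiesOverPrime ℓ) {a : Qbar}
    (ha : a ∈ A.nonunits) : ∃ j : ℕ, A.valuation a ^ j ≤ A.valuation ((ℓ : ℕ) : Qbar) := by
  classical
  by_cases ha0 : a = 0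
  · refine ⟨1, ?_⟩
    rw [ha0, map_zero, pow_one]
    exact zero_le
  by_contra hcon
  push Not at hcon
  have hva : A.valuation a < 1 := (A.mem_nonunits_iff).1 ha
  have hva0 : A.valuation a ≠ 0 := (A.valuation.ne_zero_iff).2 ha0
  have hvapos : 0 < A.valuation a := zero_lt_iff.2 hva0
  have halg : IsAlgebraic ℤ a :=
    (IsFractionRing.isAlgebraic_iff ℤ ℚ Qbar).2 (Algebra.IsAlgebraic.isAlgebraic a)
  obtain ⟨p, hp0, hpa⟩ := halg
  have hprim := Polynomial.isPrimitive_primPart p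
  have hroot : Polynomial.aeval a p.primPart = 0 := Polynomial.aeval_primPart_eq_zero hp0 hpa
  set P := p.primPart with hP
  have hex : ∃ i, ¬ ((ℓ : ℕ) : ℤ) ∣ P.coeff i := by
    by_contra hall
    push Not at hall
    have h1 : Polynomial.C ((ℓ : ℕ) : ℤ) ∣ P := (Polynomial.C_dvd_iff_dvd_coeff _ _).2 hall
    have h2 := (Polynomial.isPrimitive_iff_isUnit_of_C_dvd.1 hprim) _ h1
    rw [Int.isUnit_iff_natAbs_eq, Int.natAbs_natCast] at h2
    exact hℓ.one_lt.ne' h2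
  set j := Nat.find hex with hj
  have hjnd : ¬ ((ℓ : ℕ) : ℤ) ∣ P.coeff j := Nat.find_spec hex
  have hjmin : ∀ i < j, ((ℓ : ℕ) : ℤ) ∣ P.coeff i := fun i hi => by
    have := Nat.find_min hex hi
    rwa [not_not] at this
  have hjdeg : j ∈ Finset.range (P.natDegree + 1) := by
    rw [Finset.mem_range, Nat.lt_succ_iff]
    apply Polynomial.le_natDegree_of_ne_zero
    intro h0
    rw [h0] at hjnd
    exact hjnd (dvd_zero _)
  rw [Polynomial.aeval_eq_sum_range, ← Finset.add_sum_erase _ _ hjdeg] at hroot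
  have hterm : A.valuation (P.coeff j • a ^ j) = A.valuation a ^ j := by
    rw [zsmul_eq_mul, map_mul, map_pow, val_intCast_eq_one hℓ hA hjnd, one_mul]
  have hothers : A.valuation (∑ i ∈ (Finset.range (P.natDegree + 1)).erase j, P.coeff i • a ^ i)
      < A.valuation a ^ j := by
    apply A.valuation.map_sum_lt (pow_ne_zero _ hva0)
    intro i hi
    rw [Finset.mem_erase] at hi
    rw [zsmul_eq_mul, map_mul, map_pow]
    rcases lt_or_gt_of_ne hi.1 with hlt | hgt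
    · calc A.valuation ((P.coeff i : ℤ) : Qbar) * A.valuation a ^ i
          ≤ A.valuation ((ℓ : ℕ) : Qbar) * 1 := by
            gcongr
            · exact val_intCast_le_of_dvd (hjmin i hlt)
            · exact pow_le_one₀ zero_le hva.le
        _ = A.valuation ((ℓ : ℕ) : Qbar) := mul_one _
        _ < A.valuation a ^ j := hcon j
    · calc A.valuation ((P.coeff i : ℤ) : Qbar) * A.valuation a ^ i
          ≤ 1 * A.valuation a ^ i := by
            gcongr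
            exact val_intCast_le_one _
        _ = A.valuation a ^ i := one_mul _
        _ < A.valuation a ^ j := pow_lt_pow_right_of_lt_one₀ hvapos hva hgt
  have hsum := A.valuation.map_add_eq_of_lt_left (x := P.coeff j • a ^ j)
    (y := ∑ i ∈ (Finset.range (P.natDegree + 1)).erase j, P.coeff i • a ^ i)
    (by rw [hterm]; exact hothers)
  rw [hroot, map_zero, hterm] at hsum
  exact pow_ne_zero _ hva0 hsum.symm

/-- **rank one**, element form -/
theorem exists_pow_eq_prime_mul (hℓ : ℓ.Prime) (hA : A.LiesOverPrime ℓ) {a : Qbar}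
    (ha : a ∈ A.nonunits) : ∃ j : ℕ, ∃ x ∈ A, a ^ j = ((ℓ : ℕ) : Qbar) * x := by
  obtain ⟨j, hj⟩ := exists_pow_val_le hℓ hA ha
  have hℓ0 := natCast_prime_ne_zero (ℓ := ℓ) hℓ
  refine ⟨j, a ^ j * (((ℓ : ℕ) : Qbar))⁻¹, ?_, ?_⟩
  · rw [← A.valuation_le_one_iff, map_mul, map_pow, map_inv₀]
    exact mul_inv_le_one_of_le₀ hj zero_le
  · field_simp

/-- a power of a non-unit is divisible by any power of `ℓ` -/
theorem exists_pow_eq_prime_pow_mul (hℓ : ℓ.Prime) (hA : A.LiesOverPrime ℓ) {a : Qbar}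
    (ha : a ∈ A.nonunits) (n : ℕ) :
    ∃ j : ℕ, ∀ i, j ≤ i → ∃ x ∈ A, a ^ i = ((ℓ : ℕ) : Qbar) ^ n * x := by
  obtain ⟨j, x, hx, hjx⟩ := exists_pow_eq_prime_mul hℓ hA ha
  have haA : a ∈ A := A.nonunits_le ha
  refine ⟨j * n, fun i hi => ?_⟩
  obtain ⟨k, rfl⟩ := Nat.exists_eq_add_of_le hi
  refine ⟨x ^ n * a ^ k, A.mul_mem _ _ (A.pow_mem hx n) (A.pow_mem haA k), ?_⟩
  rw [pow_add, pow_mul, hjx, mul_pow]
  ring

/-- **rank one**, the form used by FF-F: a power of a non-unit is divisible by any non-zero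
element -/
theorem exists_pow_eq_mul (hℓ : ℓ.Prime) (hA : A.LiesOverPrime ℓ) {a : Qbar}
    (ha : a ∈ A.nonunits) {d : Qbar} (hd : d ≠ 0) : ∃ n : ℕ, ∃ x ∈ A, a ^ n = d * x := by
  obtain ⟨b, hb⟩ := exists_pow_mul_mem hℓ hA d⁻¹
  obtain ⟨j, hj⟩ := exists_pow_eq_prime_pow_mul hℓ hA ha b
  obtain ⟨x, hx, hjx⟩ := hj j le_rfl
  refine ⟨j, (((ℓ : ℕ) : Qbar) ^ b * d⁻¹) * x, A.mul_mem _ _ hb hx, ?_⟩
  rw [hjx]
  field_simp

end Fermat.Agent.S19lib.G

end
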