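/-
S19lib / G / RootsUnity  (helper5, block FF-G)

Roots of unity of order prime to `ℓ` in `ℚ̄` and a valuation subring `A` over `ℓ`:
* they lie in `A`, differences of distinct ones are units of `A`;
* the inertia group fixes them;
* every unit of `A` is congruent to one of them modulo the maximal ideal
  (`a ^ (ℓ ^ r - 1) ≡ 1` by a Frobenius argument);
* an element of the decomposition group fixing all of them is in the inertia group.
-/
import Mathlib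
import Fermat.Agent.S19lib.G.ValBasics

set_option autoImplicit false

noncomputable section

namespace Fermat.Agent.S19lib.G

open Fermat.Agent.Helper5 Fermat.Agent.S56lib.TWSel Fermat.Agent.S19lib
open scoped Pointwise

variable {A : ValuationSubring Qbar} {ℓ : ℕ}

/-! ### roots of unity are integral; differences are units -/

lemma mem_of_pow_eq_one {ζ : Qbar} {N : ℕ} (hN : 0 < N) (hζ : ζ ^ N = 1) : ζ ∈ A := by
  have h1 : IsIntegral ℤ ζ := IsIntegral.of_pow hN (by rw [hζ]; exact isIntegral_one)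
  exact zbar_mem A ⟨ζ, h1⟩

lemma ne_zero_of_pow_eq_one {ζ : Qbar} {N : ℕ} (hN : 0 < N) (hζ : ζ ^ N = 1) : ζ ≠ 0 := by
  rintro rfl
  rw [zero_pow hN.ne'] at hζ
  exact zero_ne_one hζ

lemma inv_mem_of_pow_eq_one {ζ : Qbar} {N : ℕ} (hN : 0 < N) (hζ : ζ ^ N = 1) : ζ⁻¹ ∈ A := by
  apply mem_of_pow_eq_one hN (N := N)
  rw [inv_pow, hζ, inv_one]

lemma pos_of_coprime (hℓ : ℓ.Prime) {N : ℕ} (hN : N.Coprime ℓ) : 0 < N := by
  rcases Nat.eq_zero_or_pos N with h | h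
  · subst h
    rw [Nat.coprime_zero_left] at hN
    exact absurd hN hℓ.one_lt.ne'
  · exact h

lemma inv_natCast_mem_of_coprime (hℓ : ℓ.Prime) (hA : A.LiesOverPrime ℓ) {N : ℕ}
    (hN : N.Coprime ℓ) : ((N : ℕ) : Qbar)⁻¹ ∈ A := by
  have h1 : ¬ ((ℓ : ℕ) : ℤ) ∣ ((N : ℕ) : ℤ) := by
    intro hd
    have h2 : ℓ ∣ N := by exact_mod_cast hd
    have h3 := Nat.dvd_gcd h2 (dvd_refl ℓ)
    rw [Nat.Coprime] at hN
    rw [hN] at h3
    exact hℓ.one_lt.ne' (Nat.dvd_one.1 h3)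
  have := inv_intCast_mem hℓ hA h1
  simpa using this

/-- `1 - ξ` is a unit of `A` for a non-trivial root of unity `ξ` of order prime to `ℓ` -/
theorem inv_one_sub_mem (hℓ : ℓ.Prime) (hA : A.LiesOverPrime ℓ) {N : ℕ} (hN : N.Coprime ℓ)
    {ξ : Qbar} (hξ : ξ ^ N = 1) (hξ1 : ξ ≠ 1) : (1 - ξ)⁻¹ ∈ A := by
  have hNpos := pos_of_coprime hℓ hN
  have hξA : ξ ∈ A := mem_of_pow_eq_one hNpos hξ
  have hgeom : ∑ i ∈ Finset.range N, ξ ^ i = 0 := by
    have h1 := mul_neg_geom_sum ξ N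
    rw [hξ, sub_self] at h1
    rcases mul_eq_zero.1 h1 with h | h
    · exact absurd (sub_eq_zero.1 h).symm hξ1
    · exact h
  -- `N = (1 - ξ) * w`
  set w : Qbar := ∑ i ∈ Finset.range N, ∑ k ∈ Finset.range i, ξ ^ k with hw
  have hwA : w ∈ A := by
    rw [hw]
    refine A.toSubring.sum_mem fun i _ => A.toSubring.sum_mem fun k _ => ?_
    exact A.pow_mem hξA k
  have hNw : ((N : ℕ) : Qbar) = (1 - ξ) * w := by
    rw [hw, Finset.mul_sum]
    have h2 : ∀ i ∈ Finset.range N, (1 - ξ) * ∑ k ∈ Finset.range i, ξ ^ k = 1 - ξ ^ i :=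
      fun i _ => mul_neg_geom_sum ξ i
    rw [Finset.sum_congr rfl h2, Finset.sum_sub_distrib, hgeom, sub_zero]
    simp
  have hN0 : ((N : ℕ) : Qbar) ≠ 0 := by exact_mod_cast hNpos.ne'
  have h1ξ : (1 - ξ) ≠ 0 := sub_ne_zero.2 (Ne.symm hξ1)
  have hw0 : w ≠ 0 := by
    intro h0
    rw [h0, mul_zero] at hNw
    exact hN0 hNw
  have h3 : (1 - ξ)⁻¹ = w * ((N : ℕ) : Qbar)⁻¹ := by
    rw [hNw]
    field_simp
  rw [h3]
  exact A.mul_mem _ _ hwA (inv_natCast_mem_of_coprime hℓ hA hN)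

/-- differences of distinct roots of unity of order prime to `ℓ` are units of `A` -/
theorem inv_sub_mem (hℓ : ℓ.Prime) (hA : A.LiesOverPrime ℓ) {N : ℕ} (hN : N.Coprime ℓ)
    {ζ ζ' : Qbar} (hζ : ζ ^ N = 1) (hζ' : ζ' ^ N = 1) (hne : ζ ≠ ζ') : (ζ - ζ')⁻¹ ∈ A := by
  have hNpos := pos_of_coprime hℓ hN
  have hζ0 := ne_zero_of_pow_eq_one hNpos hζ
  have hξ : (ζ' * ζ⁻¹) ^ N = 1 := by rw [mul_pow, inv_pow, hζ, hζ', inv_one, mul_one]
  have hξ1 : ζ' * ζ⁻¹ ≠ 1 := by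
    intro h
    apply hne
    field_simp at h
    exact h.symm
  have h1 := inv_one_sub_mem hℓ hA hN hξ hξ1
  have h2 : (ζ - ζ')⁻¹ = ζ⁻¹ * (1 - ζ' * ζ⁻¹)⁻¹ := by
    rw [← mul_inv]
    congr 1
    field_simp
  rw [h2]
  exact A.mul_mem _ _ (inv_mem_of_pow_eq_one hNpos hζ) h1

/-- a unit of `A` is not in the maximal ideal -/
lemma not_mem_nonunits_of_inv_mem {x : Qbar} (hx : x⁻¹ ∈ A) (hx0 : x ≠ 0) : x ∉ A.nonunits := by
  intro h
  rw [A.mem_nonunits_iff] at h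
  have h2 := (A.valuation_le_one_iff _).2 hx
  rw [map_inv₀] at h2
  have h3 : A.valuation x ≠ 0 := (A.valuation.ne_zero_iff).2 hx0
  have h4 : 1 ≤ A.valuation x := by
    rwa [inv_le_one₀ (zero_lt_iff.2 h3)] at h2
  exact absurd h (not_lt.2 h4)

/-- two roots of unity of order prime to `ℓ` which are congruent modulo the maximal ideal of `A`
are equal -/
theorem eq_of_sub_mem_nonunits (hℓ : ℓ.Prime) (hA : A.LiesOverPrime ℓ) {N : ℕ} (hN : N.Coprime ℓ)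
    {ζ ζ' : Qbar} (hζ : ζ ^ N = 1) (hζ' : ζ' ^ N = 1) (h : ζ - ζ' ∈ A.nonunits) : ζ = ζ' := by
  by_contra hne
  exact not_mem_nonunits_of_inv_mem (inv_sub_mem hℓ hA hN hζ hζ' hne) (sub_ne_zero.2 hne) h

/-- the inertia group fixes the roots of unity of order prime to `ℓ` -/
theorem inertia_fixes_root (hℓ : ℓ.Prime) (hA : A.LiesOverPrime ℓ) {N : ℕ} (hN : N.Coprime ℓ)
    {ζ : Qbar} (hζ : ζ ^ N = 1) {σ : GQ} (hσ : σ ∈ IA A) : σ ζ = ζ := by
  have hNpos := pos_of_coprime hℓ hN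
  rw [mem_inertiaSubgroupIn_iff] at hσ
  have h1 := hσ.2 ζ (mem_of_pow_eq_one hNpos hζ)
  have h2 : (σ ζ) ^ N = 1 := by rw [← map_pow, hζ, map_one]
  exact eq_of_sub_mem_nonunits hℓ hA hN h2 hζ h1

/-- roots of unity of order prime to `ℓ` lie in `A0` -/
theorem root_mem_A0 (hℓ : ℓ.Prime) (hA : A.LiesOverPrime ℓ) {N : ℕ} (hN : N.Coprime ℓ)
    {ζ : Qbar} (hζ : ζ ^ N = 1) : ζ ∈ A0 A :=
  ⟨mem_of_pow_eq_one (pos_of_coprime hℓ hN) hζ, fun _ hσ => inertia_fixes_root hℓ hA hN hζ hσ⟩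

/-! ### Frobenius elements and the finite order of units modulo the maximal ideal -/

/-- a Frobenius element exists at every valuation subring over `ℓ` -/
theorem exists_frobenius (hℓ : ℓ.Prime) (hA : A.LiesOverPrime ℓ) :
    ∃ φ : GQ, φ ∈ DA A ∧ ∀ a : Qbar, a ∈ A → φ a - a ^ ℓ ∈ A.nonunits := by
  obtain ⟨P, σ, hP, hσ⟩ := Fermat.Agent.Helper5.exists_isFrobeniusAt ℓ hℓ
  obtain ⟨g, hg⟩ := exists_smul_eq_of_liesOverPrime hℓ hP hA
  have h1 : A.IsFrobeniusAt (g * σ * g⁻¹) ℓ := by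
    rw [hg]
    exact isFrobeniusAt_conj hσ
  rw [isFrobeniusAt_iff] at h1
  exact ⟨g * σ * g⁻¹, h1.1, h1.2⟩

lemma pow_sub_pow_mem_nonunits {x y : Qbar} (hx : x ∈ A) (hy : y ∈ A) (h : x - y ∈ A.nonunits)
    (n : ℕ) : x ^ n - y ^ n ∈ A.nonunits := by
  obtain ⟨c, hc⟩ := sub_dvd_pow_sub_pow (⟨x, hx⟩ : A) ⟨y, hy⟩ n
  have h1 : x ^ n - y ^ n = (c : Qbar) * (x - y) := by
    have := congrArg (fun z : A => (z : Qbar)) hc
    push_cast at this
    rw [this]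
    ring
  rw [h1]
  exact mul_mem_nonunits_of_mem c.2 h

/-- iterating a Frobenius element -/
lemma frob_pow_apply {φ : GQ} (hφD : φ ∈ DA A)
    (hφ : ∀ a : Qbar, a ∈ A → φ a - a ^ ℓ ∈ A.nonunits) (r : ℕ) :
    ∀ a : Qbar, a ∈ A → (φ ^ r) a - a ^ (ℓ ^ r) ∈ A.nonunits := by
  induction r with
  | zero =>
    intro a _
    simp only [pow_zero, pow_one, AlgEquiv.one_apply, sub_self]
    rw [A.mem_nonunits_iff, map_zero]
    exact zero_lt_one
  | succ r ih =>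
    intro a ha
    have h1 : (φ ^ (r + 1)) a - a ^ (ℓ ^ (r + 1))
        = ((φ ^ r) (φ a) - (φ a) ^ (ℓ ^ r)) + ((φ a) ^ (ℓ ^ r) - (a ^ ℓ) ^ (ℓ ^ r)) := by
      rw [pow_succ, AlgEquiv.mul_apply, ← pow_mul, pow_succ']
      ring
    rw [h1]
    have hφa : φ a ∈ A := apply_mem_of_mem_decomp hφD ha
    exact add_mem_nonunits (ih _ hφa)
      (pow_sub_pow_mem_nonunits hφa (A.pow_mem ha ℓ) (hφ a ha) _)

/-- every unit of `A` has finite order prime to `ℓ` modulo the maximal ideal -/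
theorem exists_pow_sub_one_mem_nonunits (hℓ : ℓ.Prime) (hA : A.LiesOverPrime ℓ) {a : Qbar}
    (ha : a ∈ A) (hainv : a⁻¹ ∈ A) (ha0 : a ≠ 0) :
    ∃ N : ℕ, N.Coprime ℓ ∧ a ^ N - 1 ∈ A.nonunits := by
  obtain ⟨φ, hφD, hφ⟩ := exists_frobenius hℓ hA
  -- the orbit of `a` under the powers of `φ` is finite
  have hfin : ((minpoly ℚ a).rootSet Qbar).Finite := Polynomial.rootSet_finite _ _
  have hmem : ∀ k : ℕ, (φ ^ k) a ∈ (minpoly ℚ a).rootSet Qbar := by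
    intro k
    rw [Polynomial.mem_rootSet]
    refine ⟨minpoly.ne_zero (Algebra.IsIntegral.isIntegral a), ?_⟩
    have h1 := Polynomial.aeval_algHom_apply ((φ ^ k : GQ) : Qbar →ₐ[ℚ] Qbar) a (minpoly ℚ a)
    rw [minpoly.aeval, map_zero] at h1
    exact h1
  obtain ⟨i, j, hij, heq⟩ := hfin.exists_lt_map_eq_of_forall_mem hmem
  obtain ⟨r, rfl⟩ := Nat.exists_eq_add_of_lt hij
  have hr : (φ ^ (r + 1)) a = a := by
    have h1 : (φ ^ (i + r + 1)) a = (φ ^ i) ((φ ^ (r + 1)) a) := by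
      rw [show i + r + 1 = i + (r + 1) by ring, pow_add, AlgEquiv.mul_apply]
    rw [h1] at heq
    exact ((φ ^ i).injective heq).symm
  have h2 := frob_pow_apply hφD hφ (r + 1) a ha
  rw [hr] at h2
  -- `a - a ^ (ℓ ^ (r+1)) ∈ 𝔪`, divide by the unit `a`
  have hpos : 0 < ℓ ^ (r + 1) := pow_pos hℓ.pos _
  refine ⟨ℓ ^ (r + 1) - 1, ?_, ?_⟩
  · have h3 : ℓ ^ (r + 1) - 1 + 1 = ℓ ^ (r + 1) := Nat.sub_add_cancel hpos
    have h4 : ℓ ∣ ℓ ^ (r + 1) := dvd_pow_self ℓ (Nat.succ_ne_zero r)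
    rw [Nat.coprime_comm, hℓ.coprime_iff_not_dvd]
    intro hd
    have h5 : ℓ ∣ 1 := by
      have := (Nat.dvd_add_right hd).1 (h3 ▸ h4)
      exact this
    exact hℓ.one_lt.ne' (Nat.dvd_one.1 h5)
  · have h3 : a ^ (ℓ ^ (r + 1) - 1) - 1 = -(a⁻¹) * (a - a ^ (ℓ ^ (r + 1))) := by
      have h4 : a ^ (ℓ ^ (r + 1)) = a ^ (ℓ ^ (r + 1) - 1) * a := by
        rw [← pow_succ, Nat.sub_add_cancel hpos]
      rw [h4]
      field_simp
      ring
    rw [h3]
    exact mul_mem_nonunits_of_mem (A.neg_mem _ hainv) h2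

/-- every unit of `A` is congruent to a root of unity of order prime to `ℓ` -/
theorem exists_root_sub_mem_nonunits (hℓ : ℓ.Prime) (hA : A.LiesOverPrime ℓ) {a : Qbar}
    (ha : a ∈ A) (hainv : a⁻¹ ∈ A) (ha0 : a ≠ 0) :
    ∃ (N : ℕ) (ξ : Qbar), N.Coprime ℓ ∧ ξ ^ N = 1 ∧ a - ξ ∈ A.nonunits := by
  classical
  obtain ⟨N, hN, haN⟩ := exists_pow_sub_one_mem_nonunits hℓ hA ha hainv ha0
  have hNpos := pos_of_coprime hℓ hN
  have : NeZero ((N : ℕ) : Qbar) := ⟨by exact_mod_cast hNpos.ne'⟩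
  obtain ⟨ζ0, hζ0⟩ := HasEnoughRootsOfUnity.exists_primitiveRoot Qbar N
  have hfac := Polynomial.X_pow_sub_one_eq_prod hNpos hζ0
  have heval : a ^ N - 1 = ∏ ξ ∈ Polynomial.nthRootsFinset N (1 : Qbar), (a - ξ) := by
    have := congrArg (Polynomial.eval a) hfac
    simpa [Polynomial.eval_prod] using this
  by_contra hcon
  push Not at hcon
  have hall : ∀ ξ ∈ Polynomial.nthRootsFinset N (1 : Qbar), A.valuation (a - ξ) = 1 := by
    intro ξ hξ
    have hξN : ξ ^ N = 1 := (Polynomial.mem_nthRootsFinset hNpos (1 : Qbar)).1 hξ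
    have h1 : a - ξ ∈ A := sub_mem ha (mem_of_pow_eq_one hNpos hξN)
    have h2 := hcon N ξ hN hξN
    rw [A.mem_nonunits_iff, not_lt] at h2
    exact le_antisymm ((A.valuation_le_one_iff _).2 h1) h2
  rw [heval, A.mem_nonunits_iff, map_prod, Finset.prod_congr rfl hall, Finset.prod_const_one]
    at haN
  exact lt_irrefl _ haN

/-- an element of the decomposition group which fixes all roots of unity of order prime to `ℓ`
lies in the inertia group -/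
theorem mem_inertia_of_fixes_roots (hℓ : ℓ.Prime) (hA : A.LiesOverPrime ℓ) {d : GQ}
    (hd : d ∈ DA A)
    (hfix : ∀ (N : ℕ) (ζ : Qbar), N.Coprime ℓ → ζ ^ N = 1 → d ζ = ζ) : d ∈ IA A := by
  rw [mem_inertiaSubgroupIn_iff]
  refine ⟨hd, fun a ha => ?_⟩
  by_cases hau : a ∈ A.nonunits
  · exact sub_mem_nonunits (apply_mem_nonunits_of_mem_decomp hd hau) hau
  · rw [ValuationSubring.mem_nonunits_iff_or, not_or, not_not] at hau
    obtain ⟨N, ξ, hN, hξ, haξ⟩ := exists_root_sub_mem_nonunits hℓ hA ha hau.2 hau.1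
    have h1 : d a - a = d (a - ξ) - (a - ξ) := by
      rw [map_sub, hfix N ξ hN hξ]
      ring
    rw [h1]
    exact sub_mem_nonunits (apply_mem_nonunits_of_mem_decomp hd haξ) haξ

end Fermat.Agent.S19lib.G

end
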