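/-
S19lib / G / Compact  (helper5, block FF-G)

Topology of the decomposition group of a valuation subring `A` of `ℚ̄` over `ℓ`:
* `DA A` is closed in `G_ℚ`;
* **unramified levels are cyclotomic**: every open subset of `G_ℚ` containing the inertia group
  contains `{d ∈ DA A | d ζ = ζ}` for a suitable primitive root of unity `ζ` of order prime
  to `ℓ` (compactness of `DA A` and `mem_inertia_of_fixes_roots`).
-/
import Mathlib
import Fermat.Agent.S19lib.G.RootsUnity

set_option autoImplicit false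

noncomputable section

namespace Fermat.Agent.S19lib.G

open Fermat.Agent.Helper5 Fermat.Agent.S56lib.TWSel Fermat.Agent.S19lib
open scoped Pointwise

variable {A : ValuationSubring Qbar} {ℓ : ℕ}

/-! ### open sets defined by the value at one element -/

lemma isOpen_setOf_apply_mem (a : Qbar) (S : Set Qbar) : IsOpen {g : GQ | g a ∈ S} := by
  rw [isOpen_iff_forall_mem_open]
  intro g hg
  refine ⟨g • (MulAction.stabilizer GQ a : Set GQ), ?_,
    (stabilizer_isOpen_of_isIntegral (K := ℚ) (L := Qbar) a).leftCoset g, ?_⟩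
  · rintro h ⟨s, hs, rfl⟩
    have hs' : s a = a := hs
    change (g * s) a ∈ S
    rw [AlgEquiv.mul_apply, hs']
    exact hg
  · exact ⟨1, one_mem _, by simp⟩

lemma isClosed_setOf_apply_mem (a : Qbar) (S : Set Qbar) : IsClosed {g : GQ | g a ∈ S} := by
  rw [← isOpen_compl_iff]
  exact isOpen_setOf_apply_mem a Sᶜ

lemma isClosed_setOf_inv_apply_mem (a : Qbar) (S : Set Qbar) :
    IsClosed {g : GQ | g⁻¹ a ∈ S} :=
  (isClosed_setOf_apply_mem a S).preimage continuous_inv

/-- the decomposition group, element-wise -/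
lemma mem_DA_iff {g : GQ} : g ∈ DA A ↔ ∀ a : Qbar, a ∈ A → (g a ∈ A ∧ g⁻¹ a ∈ A) := by
  constructor
  · intro hg a ha
    exact ⟨apply_mem_of_mem_decomp hg ha, apply_mem_of_mem_decomp (inv_mem_decomp hg) ha⟩
  · intro h
    rw [mem_decomp_iff]
    ext x
    rw [mem_smul_iff]
    constructor
    · intro hx
      have := (h _ hx).1
      rwa [apply_inv_apply] at this
    · intro hx
      exact (h x hx).2

/-- the decomposition group is closed -/
theorem isClosed_DA : IsClosed (DA A : Set GQ) := by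
  have h : (DA A : Set GQ) = ⋂ a : A, ({g : GQ | g (a : Qbar) ∈ (A : Set Qbar)} ∩
      {g : GQ | g⁻¹ (a : Qbar) ∈ (A : Set Qbar)}) := by
    ext g
    simp only [SetLike.mem_coe, Set.mem_iInter, Set.mem_inter_iff, Set.mem_ofPred_eq]
    rw [mem_DA_iff]
    exact ⟨fun h a => h a a.2, fun h a ha => h ⟨a, ha⟩⟩
  rw [h]
  exact isClosed_iInter fun a =>
    (isClosed_setOf_apply_mem _ _).inter (isClosed_setOf_inv_apply_mem _ _)

theorem isCompact_DA : IsCompact (DA A : Set GQ) := isClosed_DA.isCompact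

/-! ### unramified levels are cyclotomic -/

/-- Every open set containing the inertia group contains the stabiliser, in the decomposition
group, of a primitive root of unity of order prime to `ℓ`. -/
theorem exists_root_stab_subset (hℓ : ℓ.Prime) (hA : A.LiesOverPrime ℓ) {S : Set GQ}
    (hS : IsOpen S) (hIS : ∀ σ ∈ IA A, σ ∈ S) :
    ∃ (N : ℕ) (ζ : Qbar), N.Coprime ℓ ∧ IsPrimitiveRoot ζ N ∧
      ∀ d ∈ DA A, d ζ = ζ → d ∈ S := by
  classical
  -- the compact set of bad elements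
  have hC : IsCompact ((DA A : Set GQ) ∩ Sᶜ) := isCompact_DA.inter_right hS.isClosed_compl
  -- the index type of roots of unity
  let Z := {p : ℕ × Qbar // p.1.Coprime ℓ ∧ p.2 ^ p.1 = 1}
  let U : Z → Set GQ := fun p => {g : GQ | g p.1.2 ∈ ({p.1.2} : Set Qbar)ᶜ}
  have hU : ∀ p, IsOpen (U p) := fun p => isOpen_setOf_apply_mem _ _
  have hcover : (DA A : Set GQ) ∩ Sᶜ ⊆ ⋃ p, U p := by
    rintro d ⟨hdD, hdS⟩
    have hdI : d ∉ IA A := fun h => hdS (hIS d h)
    have : ¬ ∀ (N : ℕ) (ζ : Qbar), N.Coprime ℓ → ζ ^ N = 1 → d ζ = ζ :=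
      fun h => hdI (mem_inertia_of_fixes_roots hℓ hA hdD h)
    push Not at this
    obtain ⟨N, ζ, hN, hζ, hdζ⟩ := this
    exact Set.mem_iUnion.2 ⟨⟨(N, ζ), hN, hζ⟩, hdζ⟩
  obtain ⟨t, ht⟩ := hC.elim_finite_subcover U hU hcover
  -- the common order
  set N := ∏ p ∈ t, p.1.1 with hNdef
  have hNcop : N.Coprime ℓ := Nat.Coprime.prod_left fun p _ => p.2.1
  have hNpos := pos_of_coprime hℓ hNcop
  have : NeZero ((N : ℕ) : Qbar) := ⟨by exact_mod_cast hNpos.ne'⟩
  have : NeZero N := ⟨hNpos.ne'⟩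
  obtain ⟨ζ, hζ⟩ := HasEnoughRootsOfUnity.exists_primitiveRoot Qbar N
  refine ⟨N, ζ, hNcop, hζ, fun d hdD hdζ => ?_⟩
  by_contra hdS
  have hmem := ht ⟨hdD, hdS⟩
  simp only [Set.mem_iUnion] at hmem
  obtain ⟨p, hp, hdp⟩ := hmem
  apply hdp
  -- `p.1.2` is a power of `ζ`
  have hpN : p.1.2 ^ N = 1 := by
    obtain ⟨k, hk⟩ := Finset.dvd_prod_of_mem (fun p : Z => p.1.1) hp
    rw [hNdef, hk, pow_mul, p.2.2, one_pow]
  obtain ⟨i, _, hi⟩ := hζ.eq_pow_of_pow_eq_one hpN
  change d p.1.2 = p.1.2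
  rw [← hi, map_pow, hdζ]

end Fermat.Agent.S19lib.G

end
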