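/-
S19lib / G / UnrDescent  (helper5, block FF-G)

**Unramified Galois descent of lattices** (`A0 → AD`): an `A0`-submodule `Λ` of `(ℚ̄^I)^ι`, stable
under the coordinatewise action of the decomposition group, is spanned over `A0` by its
`D`-fixed vectors.

Proof: the stabiliser of `λ ∈ Λ` in `D` is open and contains `I`, hence contains the stabiliser
of a primitive root of unity `ζ` of order prime to `ℓ` (`exists_root_stab_subset`).  The `D`-orbit
`O` of `ζ` is a finite set of roots of unity whose Vandermonde matrix is invertible over `A0`;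
the traces `T_j = ∑_{z ∈ O} z^j • λ_z` are `D`-fixed elements of `Λ`, and `λ` is an
`A0`-combination of them.
-/
import Mathlib
import Fermat.Agent.S19lib.G.Compact

set_option autoImplicit false

noncomputable section

namespace Fermat.Agent.S19lib.G

open Fermat.Agent.Helper5 Fermat.Agent.S56lib.TWSel Fermat.Agent.S19lib
open scoped Pointwise

variable {A : ValuationSubring Qbar} {ℓ : ℕ} {ι : Type*}

/-- coordinatewise Galois action on vectors -/
def cw (σ : GQ) (v : ι → Qbar) : ι → Qbar := fun k => σ (v k)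

@[simp] lemma cw_apply (σ : GQ) (v : ι → Qbar) (k : ι) : cw σ v k = σ (v k) := rfl

lemma cw_one (v : ι → Qbar) : cw 1 v = v := rfl

lemma cw_mul (σ τ : GQ) (v : ι → Qbar) : cw (σ * τ) v = cw σ (cw τ v) := rfl

lemma cw_add (σ : GQ) (v w : ι → Qbar) : cw σ (v + w) = cw σ v + cw σ w := by
  funext k; simp [cw]

lemma cw_smul (σ : GQ) (a : Qbar) (v : ι → Qbar) : cw σ (a • v) = σ a • cw σ v := by
  funext k; simp [cw]

lemma cw_sum {κ : Type*} (σ : GQ) (s : Finset κ) (f : κ → ι → Qbar) :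
    cw σ (∑ i ∈ s, f i) = ∑ i ∈ s, cw σ (f i) := by
  funext k; simp [cw]

/-- vectors fixed by a subgroup -/
def FixedBy (U : Subgroup GQ) (v : ι → Qbar) : Prop := ∀ σ ∈ U, cw σ v = v

lemma conj_mem_IA' {σ ρ : GQ} (hσ : σ ∈ DA A) (hρ : ρ ∈ IA A) : σ * ρ * σ⁻¹ ∈ IA A := by
  have := conj_mem_inertia (A := A) (g := σ) hρ
  rwa [mem_decomp_iff.1 hσ] at this

/-- `A0` is stable under the decomposition group -/
lemma apply_mem_A0 {σ : GQ} (hσ : σ ∈ DA A) {a : Qbar} (ha : a ∈ A0 A) : σ a ∈ A0 A := by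
  refine ⟨apply_mem_of_mem_decomp hσ ha.1, fun ρ hρ => ?_⟩
  have h1 : (σ⁻¹ * ρ * σ) ∈ IA A := by
    have := conj_mem_IA' (inv_mem_decomp hσ) hρ
    rwa [inv_inv] at this
  have h2 := ha.2 _ h1
  rw [AlgEquiv.mul_apply, AlgEquiv.mul_apply] at h2
  have h3 := congrArg σ h2
  rwa [apply_inv_apply] at h3

section descent

variable [Fintype ι]

/-- **Unramified descent.** -/
theorem mem_span_fixedBy_DA (hℓ : ℓ.Prime) (hA : A.LiesOverPrime ℓ)
    (Λ : Submodule ↥(A0 A) (ι → Qbar))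
    (hI : ∀ v ∈ Λ, FixedBy (IA A) v)
    (hD : ∀ σ ∈ DA A, ∀ v ∈ Λ, cw σ v ∈ Λ)
    {v : ι → Qbar} (hv : v ∈ Λ) :
    v ∈ Submodule.span ↥(A0 A) {w | w ∈ Λ ∧ FixedBy (DA A) w} := by
  classical
  -- the open stabiliser of `v`
  set S : Set GQ := {g | ∀ k, g (v k) = v k} with hSdef
  have hSopen : IsOpen S := by
    have : S = ⋂ k, {g : GQ | g (v k) ∈ ({v k} : Set Qbar)} := by
      ext g; simp [hSdef]
    rw [this]
    exact isOpen_iInter_of_finite fun k => isOpen_setOf_apply_mem _ _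
  have hIS : ∀ σ ∈ IA A, σ ∈ S := fun σ hσ k => congrFun (hI v hv σ hσ) k
  obtain ⟨N, ζ, hN, hζ, hstab⟩ := exists_root_stab_subset hℓ hA hSopen hIS
  have hNpos := pos_of_coprime hℓ hN
  have hζN : ζ ^ N = 1 := hζ.pow_eq_one
  -- the orbit of `ζ` under the decomposition group
  set O : Finset Qbar := (Polynomial.nthRootsFinset N (1 : Qbar)).filter
    (fun z => ∃ d ∈ DA A, d ζ = z) with hOdef
  have hOmem : ∀ z, z ∈ O ↔ ∃ d ∈ DA A, d ζ = z := by
    intro z
    rw [hOdef, Finset.mem_filter, Polynomial.mem_nthRootsFinset hNpos]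
    constructor
    · exact fun h => h.2
    · rintro ⟨d, hd, rfl⟩
      exact ⟨by rw [← map_pow, hζN, map_one], d, hd, rfl⟩
  have hOpow : ∀ z ∈ O, z ^ N = 1 := fun z hz => by
    rw [hOdef, Finset.mem_filter, Polynomial.mem_nthRootsFinset hNpos] at hz
    exact hz.1
  have hζO : ζ ∈ O := (hOmem ζ).2 ⟨1, one_mem _, rfl⟩
  -- representatives
  have hrep : ∀ z : Qbar, ∃ d : GQ, z ∈ O → (d ∈ DA A ∧ d ζ = z) := by
    intro z
    by_cases hz : z ∈ O
    · obtain ⟨d, hd, hdz⟩ := (hOmem z).1 hz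
      exact ⟨d, fun _ => ⟨hd, hdz⟩⟩
    · exact ⟨1, fun h => absurd h hz⟩
  choose rep hrep using hrep
  -- the conjugates of `v`
  set V : Qbar → ι → Qbar := fun z => cw (rep z) v with hVdef
  have hVΛ : ∀ z ∈ O, V z ∈ Λ := fun z hz => hD _ (hrep z hz).1 v hv
  -- well-definedness
  have hkey : ∀ d ∈ DA A, cw d v = V (d ζ) := by
    intro d hd
    have hz : d ζ ∈ O := (hOmem _).2 ⟨d, hd, rfl⟩
    obtain ⟨hrD, hrζ⟩ := hrep _ hz
    have h1 : (rep (d ζ))⁻¹ * d ∈ S := by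
      apply hstab _ ((DA A).mul_mem (inv_mem_decomp hrD) hd)
      rw [AlgEquiv.mul_apply]
      have h0 : (rep (d ζ))⁻¹ ((rep (d ζ)) ζ) = (rep (d ζ))⁻¹ (d ζ) := by rw [hrζ]
      rw [inv_apply_apply] at h0
      exact h0.symm
    funext k
    have h2 := h1 k
    rw [AlgEquiv.mul_apply] at h2
    have h3 := congrArg (rep (d ζ)) h2
    rw [apply_inv_apply] at h3
    exact h3
  have hVζ : V ζ = v := by
    have := hkey 1 (one_mem _)
    rw [cw_one, AlgEquiv.one_apply] at this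
    exact this.symm
  -- the action on the conjugates
  have hVcw : ∀ σ ∈ DA A, ∀ z ∈ O, cw σ (V z) = V (σ z) := by
    intro σ hσ z hz
    obtain ⟨hrD, hrζ⟩ := hrep _ hz
    have := hkey (σ * rep z) ((DA A).mul_mem hσ hrD)
    rw [cw_mul, AlgEquiv.mul_apply, hrζ] at this
    exact this
  have hσO : ∀ σ ∈ DA A, ∀ z ∈ O, σ z ∈ O := by
    intro σ hσ z hz
    obtain ⟨d, hd, rfl⟩ := (hOmem z).1 hz
    exact (hOmem _).2 ⟨σ * d, (DA A).mul_mem hσ hd, rfl⟩
  -- roots of unity in `A0`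
  have hzA0 : ∀ z ∈ O, z ∈ A0 A := fun z hz => root_mem_A0 hℓ hA hN (hOpow z hz)
  -- the traces
  set T : ℕ → ι → Qbar := fun j => ∑ z ∈ O, (z ^ j) • V z with hTdef
  have hTΛ : ∀ j, T j ∈ Λ := by
    intro j
    rw [hTdef]
    refine Λ.sum_mem fun z hz => ?_
    have : (z ^ j) • V z = (⟨z ^ j, (A0 A).pow_mem (hzA0 z hz) j⟩ : A0 A) • V z := rfl
    rw [this]
    exact Λ.smul_mem _ (hVΛ z hz)
  have hTfix : ∀ j, FixedBy (DA A) (T j) := by
    intro j σ hσ
    rw [hTdef]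
    simp only [cw_sum, cw_smul, map_pow]
    have hσinv : σ⁻¹ ∈ DA A := inv_mem_decomp hσ
    refine Finset.sum_nbij' (fun z => σ z) (fun z => σ⁻¹ z) (hσO σ hσ) (hσO _ hσinv)
      (fun z _ => inv_apply_apply σ z) (fun z _ => apply_inv_apply σ z) (fun z hz => ?_)
    rw [hVcw σ hσ z hz]
  -- the Vandermonde matrix
  set m := O.card with hm
  let e : Fin m ≃ O := (O.equivFin).symm
  let zz : Fin m → A0 A := fun i => ⟨(e i : Qbar), hzA0 _ (e i).2⟩
  have hzzinj : Function.Injective zz := by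
    intro i j hij
    have : (e i : Qbar) = (e j : Qbar) := congrArg (fun a : A0 A => (a : Qbar)) hij
    exact e.injective (Subtype.ext this)
  set M : Matrix (Fin m) (Fin m) (A0 A) := Matrix.vandermonde zz with hM
  have hdet : IsUnit M.det := by
    rw [hM, Matrix.det_vandermonde, IsUnit.prod_iff]
    intro i _
    rw [IsUnit.prod_iff]
    intro j hj
    have hne : (e j : Qbar) ≠ (e i : Qbar) := by
      intro h
      have : j = i := e.injective (Subtype.ext h)
      rw [Finset.mem_Ioi] at hj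
      exact absurd this hj.ne'
    have hinv : ((e j : Qbar) - (e i : Qbar))⁻¹ ∈ A0 A := by
      refine ⟨inv_sub_mem hℓ hA hN (hOpow _ (e j).2) (hOpow _ (e i).2) hne, fun ρ hρ => ?_⟩
      rw [map_inv₀, map_sub, (hzA0 _ (e j).2).2 ρ hρ, (hzA0 _ (e i).2).2 ρ hρ]
    refine IsUnit.of_mul_eq_one ⟨_, hinv⟩ (Subtype.ext ?_)
    change ((e j : Qbar) - (e i : Qbar)) * ((e j : Qbar) - (e i : Qbar))⁻¹ = 1
    exact mul_inv_cancel₀ (sub_ne_zero.2 hne)
  have hMinv : M * M⁻¹ = 1 := Matrix.mul_nonsing_inv M hdet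
  -- the index of `ζ`
  let i0 : Fin m := e.symm ⟨ζ, hζO⟩
  have hi0 : (e i0 : Qbar) = ζ := by simp [i0]
  -- `T j` in terms of the matrix
  have hTM : ∀ j : Fin m, T j = ∑ i : Fin m, ((M i j : A0 A) : Qbar) • V (e i) := by
    intro j
    change ∑ z ∈ O, (z ^ (j : ℕ)) • V z = _
    have h1 : ∑ z ∈ O, (z ^ (j : ℕ)) • V z = ∑ z : O, ((z : Qbar) ^ (j : ℕ)) • V z :=
      (Finset.sum_coe_sort O (fun z => (z ^ (j : ℕ)) • V z)).symm
    rw [h1, ← e.sum_comp]
    refine Finset.sum_congr rfl fun i _ => ?_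
    rw [hM, Matrix.vandermonde_apply]
    rfl
  -- the inversion formula
  have hinvform : v = ∑ j : Fin m, ((M⁻¹ j i0 : A0 A) : Qbar) • T j := by
    have h1 : ∑ j : Fin m, ((M⁻¹ j i0 : A0 A) : Qbar) • T j
        = ∑ i : Fin m, (((M * M⁻¹) i i0 : A0 A) : Qbar) • V (e i) := by
      simp only [hTM, Finset.smul_sum, smul_smul]
      rw [Finset.sum_comm]
      refine Finset.sum_congr rfl fun i _ => ?_
      rw [← Finset.sum_smul]
      congr 1
      rw [Matrix.mul_apply]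
      push_cast
      refine Finset.sum_congr rfl fun j _ => ?_
      rw [mul_comm]
    rw [h1, hMinv]
    rw [Finset.sum_eq_single i0]
    · rw [Matrix.one_apply_eq, hi0, hVζ]
      simp
    · intro i _ hi
      rw [Matrix.one_apply_ne hi]
      simp
    · intro h
      exact absurd (Finset.mem_univ _) h
  rw [hinvform]
  refine Submodule.sum_mem _ fun j _ => ?_
  have : ((M⁻¹ j i0 : A0 A) : Qbar) • T j = (M⁻¹ j i0 : A0 A) • T j := rfl
  rw [this]
  exact Submodule.smul_mem _ _ (Submodule.subset_span ⟨hTΛ j, hTfix j⟩)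

end descent

end Fermat.Agent.S19lib.G

end
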