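/-
S19lib / G / LatticeDescent  (helper5, block FF-G)

**Descent of lattices `A0 → ℤ_(ℓ)`** in coordinates: an `A0`-submodule `Λ` of `(ℚ̄^I)^ι`, stable
under the coordinatewise action of the decomposition group and containing `ℓ^e • A0^ι`, is spanned
over `A0` by its rational vectors.

Two steps: `A0 → AD` (`mem_span_fixedBy_DA`, unramified descent) and `AD → ℤ_(ℓ)`
(density of `ℤ` in `AD A`, the arithmetic input `ADApproxStmt`, proved by the lead).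
-/
import Mathlib
import Fermat.Agent.S19lib.G.UnrDescent

set_option autoImplicit false

noncomputable section

namespace Fermat.Agent.S19lib.G

open Fermat.Agent.Helper5 Fermat.Agent.S56lib.TWSel Fermat.Agent.S19lib
open scoped Pointwise

/-- **The arithmetic input** (`e = f = 1` in the decomposition field): the integers are dense in
the decomposition-fixed part of `A`. -/
def ADApproxStmt : Prop :=
  ∀ (ℓ : ℕ) [Fact ℓ.Prime] (A : ValuationSubring Qbar), A.LiesOverPrime ℓ →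
    ∀ r ∈ AD A, ∀ n : ℕ, ∃ z : ℤ, ∃ s ∈ A, r - (z : Qbar) = ((ℓ : ℕ) : Qbar) ^ n * s

variable {A : ValuationSubring Qbar} {ℓ : ℕ} {ι : Type*}

/-- rational vectors -/
def IsRat (v : ι → Qbar) : Prop := ∀ k, v k ∈ Set.range (algebraMap ℚ Qbar)

lemma isRat_iff_fixed (v : ι → Qbar) : IsRat v ↔ ∀ σ : GQ, cw σ v = v := by
  constructor
  · intro h σ
    funext k
    obtain ⟨q, hq⟩ := h k
    rw [cw_apply, ← hq]
    exact σ.commutes q
  · intro h k
    rw [InfiniteGalois.mem_range_algebraMap_iff_fixed]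
    intro σ
    exact congrFun (h σ) k

lemma IA_le_DA {σ : GQ} (hσ : σ ∈ IA A) : σ ∈ DA A := (mem_inertiaSubgroupIn_iff.1 hσ).1

lemma AD_le_A0 {a : Qbar} (ha : a ∈ AD A) : a ∈ A0 A :=
  ⟨ha.1, fun σ hσ => ha.2 σ (IA_le_DA hσ)⟩

section

variable [Fintype ι] [DecidableEq ι]

/-- **Step `AD → ℤ_(ℓ)`.** -/
theorem mem_span_rat_of_fixedBy_DA (hApp : ADApproxStmt) [Fact ℓ.Prime]
    (hA : A.LiesOverPrime ℓ) (Λ : Submodule ↥(A0 A) (ι → Qbar)) {e : ℕ}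
    (hfull : ∀ k : ι, Pi.single k (((ℓ : ℕ) : Qbar) ^ e) ∈ Λ)
    {w : ι → Qbar} (hw : w ∈ Λ) (hwD : FixedBy (DA A) w) :
    w ∈ Submodule.span ↥(A0 A) {u | u ∈ Λ ∧ IsRat u} := by
  have hℓ : ℓ.Prime := Fact.out
  have hℓ0 : ((ℓ : ℕ) : Qbar) ≠ 0 := natCast_prime_ne_zero hℓ
  obtain ⟨b, hb⟩ := exists_pow_mul_mem_finite hℓ hA w
  -- the coordinates, scaled, are in `AD A`
  have hAD : ∀ k, ((ℓ : ℕ) : Qbar) ^ b * w k ∈ AD A := fun k =>
    ⟨hb k, fun σ hσ => by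
      rw [map_mul, map_pow, map_natCast]
      congr 1
      exact congrFun (hwD σ hσ) k⟩
  choose z s hs hzs using fun k => hApp ℓ A hA _ (hAD k) (b + e)
  -- `s k ∈ AD A`
  have hsAD : ∀ k, s k ∈ AD A := fun k => by
    refine ⟨hs k, fun σ hσ => ?_⟩
    have h1 : s k = (((ℓ : ℕ) : Qbar) ^ (b + e))⁻¹ * (((ℓ : ℕ) : Qbar) ^ b * w k - (z k : Qbar)) := by
      rw [hzs k]
      field_simp
    rw [h1, map_mul, map_inv₀, map_pow, map_natCast, map_sub, (hAD k).2 σ hσ, map_intCast]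
  -- the rational part
  set r : ι → Qbar := fun k => (z k : Qbar) * (((ℓ : ℕ) : Qbar) ^ b)⁻¹ with hr
  have hrrat : IsRat r := fun k => ⟨(z k : ℚ) * (((ℓ : ℕ) : ℚ) ^ b)⁻¹, by
    rw [hr]
    simp⟩
  have hsingle_rat : ∀ k : ι, IsRat (Pi.single k (((ℓ : ℕ) : Qbar) ^ e)) := by
    intro k k'
    by_cases h : k' = k
    · subst h
      rw [Pi.single_eq_same]
      exact ⟨((ℓ : ℕ) : ℚ) ^ e, by simp⟩
    · rw [Pi.single_eq_of_ne h]
      exact ⟨0, by simp⟩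
  have hdecomp : w = r + ∑ k : ι, (⟨s k, AD_le_A0 (hsAD k)⟩ : A0 A) •
      (Pi.single k (((ℓ : ℕ) : Qbar) ^ e) : ι → Qbar) := by
    funext k'
    rw [Pi.add_apply, Finset.sum_apply, Finset.sum_eq_single k']
    · change w k' = r k' + s k' * (Pi.single k' (((ℓ : ℕ) : Qbar) ^ e) : ι → Qbar) k'
      rw [Pi.single_eq_same, hr]
      have h1 := hzs k'
      have h2 : w k' = (((ℓ : ℕ) : Qbar) ^ b)⁻¹ * ((z k' : Qbar)
          + ((ℓ : ℕ) : Qbar) ^ (b + e) * s k') := by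
        rw [← h1]
        field_simp
        ring
      rw [h2, pow_add]
      field_simp
    · intro k _ hk
      change s k * (Pi.single k (((ℓ : ℕ) : Qbar) ^ e) : ι → Qbar) k' = 0
      rw [Pi.single_eq_of_ne (Ne.symm hk), mul_zero]
    · intro h
      exact absurd (Finset.mem_univ _) h
  have hsumΛ : ∑ k : ι, (⟨s k, AD_le_A0 (hsAD k)⟩ : A0 A) •
      (Pi.single k (((ℓ : ℕ) : Qbar) ^ e) : ι → Qbar) ∈ Λ :=
    Λ.sum_mem fun k _ => Λ.smul_mem _ (hfull k)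
  have hrΛ : r ∈ Λ := by
    have : r = w - ∑ k : ι, (⟨s k, AD_le_A0 (hsAD k)⟩ : A0 A) •
        (Pi.single k (((ℓ : ℕ) : Qbar) ^ e) : ι → Qbar) := by
      rw [eq_sub_iff_add_eq]
      exact hdecomp.symm
    rw [this]
    exact Λ.sub_mem hw hsumΛ
  rw [hdecomp]
  refine Submodule.add_mem _ (Submodule.subset_span ⟨hrΛ, hrrat⟩) ?_
  exact Submodule.sum_mem _ fun k _ =>
    Submodule.smul_mem _ _ (Submodule.subset_span ⟨hfull k, hsingle_rat k⟩)

/-- **Descent of lattices** `A0 → ℤ_(ℓ)`. -/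
theorem mem_span_rat (hApp : ADApproxStmt) [Fact ℓ.Prime]
    (hA : A.LiesOverPrime ℓ) (Λ : Submodule ↥(A0 A) (ι → Qbar))
    (hI : ∀ v ∈ Λ, FixedBy (IA A) v)
    (hD : ∀ σ ∈ DA A, ∀ v ∈ Λ, cw σ v ∈ Λ) {e : ℕ}
    (hfull : ∀ k : ι, Pi.single k (((ℓ : ℕ) : Qbar) ^ e) ∈ Λ)
    {v : ι → Qbar} (hv : v ∈ Λ) :
    v ∈ Submodule.span ↥(A0 A) {u | u ∈ Λ ∧ IsRat u} := by
  have hℓ : ℓ.Prime := Fact.out
  have h1 := mem_span_fixedBy_DA hℓ hA Λ hI hD hv
  refine Submodule.span_le.2 ?_ h1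
  rintro w ⟨hw, hwD⟩
  exact mem_span_rat_of_fixedBy_DA hApp hA Λ hfull hw hwD

end

end Fermat.Agent.S19lib.G

end
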