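/-
S19lib / G / Coord  (helper5, block FF-G)

**Galois coordinates on `Map(X, ℚ̄)`** for a finite `G_ℚ`-set `X` with an injective equivariant map
`i : X → ℚ̄`: the functions `i^j`, `j < n = card X`, are `G_ℚ`-equivariant and form a `ℚ̄`-basis
(Vandermonde).  In these coordinates the semilinear action `star σ φ = σ ∘ φ ∘ σ⁻¹` is the
coordinatewise action, so the lattice descent of `LatticeDescent.lean` applies:
an `A0`-module `H` of `I`-equivariant functions, stable under the decomposition group and full,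
is spanned over `A0` by its `G_ℚ`-equivariant elements (`mem_span_equivariant`).
-/
import Mathlib
import Fermat.Agent.S19lib.G.LatticeDescent

set_option autoImplicit false
set_option linter.unusedSectionVars false

noncomputable section

namespace Fermat.Agent.S19lib.G

open Fermat.Agent.Helper5 Fermat.Agent.S56lib.TWSel Fermat.Agent.S19lib
open scoped Pointwise

variable {X : Type*} [MulAction GQ X]

/-- the semilinear action of `G_ℚ` on functions -/
def star (σ : GQ) (φ : X → Qbar) : X → Qbar := fun x => σ (φ (σ⁻¹ • x))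

@[simp] lemma star_apply (σ : GQ) (φ : X → Qbar) (x : X) : star σ φ x = σ (φ (σ⁻¹ • x)) := rfl

lemma star_add (σ : GQ) (φ ψ : X → Qbar) : star σ (φ + ψ) = star σ φ + star σ ψ := by
  funext x; simp [star]

lemma star_smul (σ : GQ) (a : Qbar) (φ : X → Qbar) : star σ (a • φ) = σ a • star σ φ := by
  funext x; simp [star]

/-- equivariance under a subgroup -/
def IsEqv (U : Subgroup GQ) (φ : X → Qbar) : Prop := ∀ σ ∈ U, ∀ x, φ (σ • x) = σ (φ x)

lemma isEqv_iff_star {U : Subgroup GQ} {φ : X → Qbar} :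
    IsEqv U φ ↔ ∀ σ ∈ U, star σ φ = φ := by
  constructor
  · intro h σ hσ
    funext x
    rw [star_apply, ← h σ hσ, smul_inv_smul]
  · intro h σ hσ x
    have := congrFun (h σ hσ) (σ • x)
    rw [star_apply, inv_smul_smul] at this
    exact this.symm

section coords

variable [Fintype X] (i : X → Qbar)

/-- the function with coordinates `c` in the basis `i^j` -/
def fromCoord (c : Fin (Fintype.card X) → Qbar) : X → Qbar :=
  fun x => ∑ j, c j * i x ^ (j : ℕ)

lemma fromCoord_apply (c : Fin (Fintype.card X) → Qbar) (x : X) :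
    fromCoord i c x = ∑ j, c j * i x ^ (j : ℕ) := rfl

lemma fromCoord_add (c c' : Fin (Fintype.card X) → Qbar) :
    fromCoord i (c + c') = fromCoord i c + fromCoord i c' := by
  funext x
  simp only [fromCoord_apply, Pi.add_apply, add_mul, Finset.sum_add_distrib]

lemma fromCoord_smul (a : Qbar) (c : Fin (Fintype.card X) → Qbar) :
    fromCoord i (a • c) = a • fromCoord i c := by
  funext x
  simp only [fromCoord_apply, Pi.smul_apply, smul_eq_mul, Finset.mul_sum, mul_assoc]

lemma fromCoord_zero : fromCoord i (0 : Fin (Fintype.card X) → Qbar) = 0 := by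
  funext x
  simp [fromCoord_apply]

lemma fromCoord_sub (c c' : Fin (Fintype.card X) → Qbar) :
    fromCoord i (c - c') = fromCoord i c - fromCoord i c' := by
  funext x
  simp only [fromCoord_apply, Pi.sub_apply, sub_mul, Finset.sum_sub_distrib]

lemma fromCoord_single [DecidableEq (Fin (Fintype.card X))] (j : Fin (Fintype.card X))
    (a : Qbar) : fromCoord i (Pi.single j a) = fun x => a * i x ^ (j : ℕ) := by
  funext x
  rw [fromCoord_apply, Finset.sum_eq_single j]
  · rw [Pi.single_eq_same]
  · intro k _ hk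
    rw [Pi.single_eq_of_ne hk, zero_mul]
  · intro h
    exact absurd (Finset.mem_univ _) h

/-- the Vandermonde matrix of the values of `i` -/
def vdm : Matrix (Fin (Fintype.card X)) (Fin (Fintype.card X)) Qbar :=
  Matrix.vandermonde (fun k => i ((Fintype.equivFin X).symm k))

lemma fromCoord_eq_mulVec (c : Fin (Fintype.card X) → Qbar) (k : Fin (Fintype.card X)) :
    fromCoord i c ((Fintype.equivFin X).symm k) = (vdm i).mulVec c k := by
  rw [fromCoord_apply, Matrix.mulVec, dotProduct]
  refine Finset.sum_congr rfl fun j _ => ?_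
  rw [vdm, Matrix.vandermonde_apply, mul_comm]

variable {i}

lemma isUnit_vdm_det (hi : Function.Injective i) : IsUnit (vdm i).det := by
  rw [isUnit_iff_ne_zero, vdm, Matrix.det_vandermonde_ne_zero_iff]
  exact hi.comp (Fintype.equivFin X).symm.injective

theorem fromCoord_injective (hi : Function.Injective i) : Function.Injective (fromCoord i) := by
  intro c c' h
  have h1 : (vdm i).mulVec c = (vdm i).mulVec c' := by
    funext k
    rw [← fromCoord_eq_mulVec, ← fromCoord_eq_mulVec, h]
  have h2 : IsUnit (vdm i) := (Matrix.isUnit_iff_isUnit_det _).2 (isUnit_vdm_det hi)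
  exact (Matrix.mulVec_injective_iff_isUnit.2 h2) h1

theorem fromCoord_surjective (hi : Function.Injective i) : Function.Surjective (fromCoord i) := by
  intro φ
  refine ⟨(vdm i)⁻¹.mulVec (fun k => φ ((Fintype.equivFin X).symm k)), ?_⟩
  funext x
  have h1 := fromCoord_eq_mulVec i
    ((vdm i)⁻¹.mulVec (fun k => φ ((Fintype.equivFin X).symm k))) (Fintype.equivFin X x)
  rw [Equiv.symm_apply_apply] at h1
  rw [h1, Matrix.mulVec_mulVec, Matrix.mul_nonsing_inv _ (isUnit_vdm_det hi), Matrix.one_mulVec,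
    Equiv.symm_apply_apply]

/-- in coordinates, the semilinear action is coordinatewise -/
theorem fromCoord_cw (hiσ : ∀ (σ : GQ) (x : X), i (σ • x) = σ (i x)) (σ : GQ)
    (c : Fin (Fintype.card X) → Qbar) : fromCoord i (cw σ c) = star σ (fromCoord i c) := by
  funext x
  rw [star_apply, fromCoord_apply, fromCoord_apply, map_sum]
  refine Finset.sum_congr rfl fun j _ => ?_
  rw [map_mul, map_pow, ← hiσ, smul_inv_smul, cw_apply]

end coords

/-! ### descent for modules of functions -/

section descent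

variable [Fintype X] {A : ValuationSubring Qbar} {ℓ : ℕ}

/-- **Descent `A0 → ℤ_(ℓ)` for modules of functions.** -/
theorem mem_span_equivariant (hApp : ADApproxStmt) [Fact ℓ.Prime] (hA : A.LiesOverPrime ℓ)
    {i : X → Qbar} (hi : Function.Injective i)
    (hiσ : ∀ (σ : GQ) (x : X), i (σ • x) = σ (i x))
    (H : Submodule ↥(A0 A) (X → Qbar))
    (hHI : ∀ φ ∈ H, IsEqv (IA A) φ)
    (hHD : ∀ σ ∈ DA A, ∀ φ ∈ H, star σ φ ∈ H)
    (hfull : ∀ φ : X → Qbar, IsEqv ⊤ φ → ∃ n : ℕ, (((ℓ : ℕ) : Qbar) ^ n) • φ ∈ H)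
    {φ : X → Qbar} (hφ : φ ∈ H) :
    φ ∈ Submodule.span ↥(A0 A) {f | f ∈ H ∧ IsEqv ⊤ f} := by
  classical
  have hℓ : ℓ.Prime := Fact.out
  -- the lattice of coordinates
  let Λ : Submodule ↥(A0 A) (Fin (Fintype.card X) → Qbar) :=
    { carrier := {c | fromCoord i c ∈ H}
      add_mem' := fun {c c'} hc hc' => by
        change fromCoord i (c + c') ∈ H
        rw [fromCoord_add]
        exact H.add_mem hc hc'
      zero_mem' := by
        change fromCoord i 0 ∈ H
        rw [fromCoord_zero]
        exact H.zero_mem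
      smul_mem' := fun a c hc => by
        change fromCoord i ((a : Qbar) • c) ∈ H
        rw [fromCoord_smul]
        exact H.smul_mem a hc }
  have hΛmem : ∀ c, c ∈ Λ ↔ fromCoord i c ∈ H := fun c => Iff.rfl
  have hI : ∀ v ∈ Λ, FixedBy (IA A) v := by
    intro v hv σ hσ
    apply fromCoord_injective hi
    rw [fromCoord_cw hiσ]
    exact (isEqv_iff_star.1 (hHI _ hv)) σ hσ
  have hD : ∀ σ ∈ DA A, ∀ v ∈ Λ, cw σ v ∈ Λ := by
    intro σ hσ v hv
    rw [hΛmem, fromCoord_cw hiσ]
    exact hHD σ hσ _ hv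
  -- fullness
  have hpow_eqv : ∀ j : ℕ, IsEqv (⊤ : Subgroup GQ) (fun x : X => i x ^ j) := by
    intro j σ _ x
    change i (σ • x) ^ j = σ (i x ^ j)
    rw [hiσ, map_pow]
  choose nn hnn using fun j : Fin (Fintype.card X) => hfull _ (hpow_eqv (j : ℕ))
  set e := Finset.univ.sup nn with he
  have hfull' : ∀ k : Fin (Fintype.card X), Pi.single k (((ℓ : ℕ) : Qbar) ^ e) ∈ Λ := by
    intro k
    rw [hΛmem, fromCoord_single]
    have hle : nn k ≤ e := Finset.le_sup (Finset.mem_univ k)
    obtain ⟨d, hd⟩ := Nat.exists_eq_add_of_le hle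
    have hmem : ((ℓ : ℕ) : Qbar) ^ d ∈ A0 A :=
      (A0 A).pow_mem (RQ_le_A0 hℓ hA ⟨(ℓ : ℚ), by
        change ((ℓ : ℚ)).den.Coprime ℓ
        simp, by simp⟩) d
    have h1 : (fun x => ((ℓ : ℕ) : Qbar) ^ e * i x ^ (k : ℕ))
        = (⟨((ℓ : ℕ) : Qbar) ^ d, hmem⟩ : A0 A) •
          ((((ℓ : ℕ) : Qbar) ^ nn k) • fun x : X => i x ^ (k : ℕ)) := by
      funext x
      change _ = ((ℓ : ℕ) : Qbar) ^ d * (((ℓ : ℕ) : Qbar) ^ nn k * i x ^ (k : ℕ))
      rw [hd, pow_add]
      ring
    rw [h1]
    exact H.smul_mem _ (hnn k)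
  -- apply the lattice descent
  obtain ⟨c, rfl⟩ := fromCoord_surjective hi φ
  have hc : c ∈ Λ := hφ
  have h2 := mem_span_rat hApp hA Λ hI hD hfull' hc
  -- transport the span along `fromCoord`
  refine Submodule.span_induction (p := fun c _ => fromCoord i c ∈
      Submodule.span ↥(A0 A) {f | f ∈ H ∧ IsEqv ⊤ f}) ?_ ?_ ?_ ?_ h2
  · rintro u ⟨hu, hurat⟩
    refine Submodule.subset_span ⟨hu, ?_⟩
    rw [isEqv_iff_star]
    intro σ _
    rw [← fromCoord_cw hiσ, (isRat_iff_fixed u).1 hurat σ]
  · rw [fromCoord_zero]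
    exact Submodule.zero_mem _
  · intro u u' _ _ hu hu'
    rw [fromCoord_add]
    exact Submodule.add_mem _ hu hu'
  · intro a u _ hu
    change fromCoord i ((a : Qbar) • u) ∈ _
    rw [fromCoord_smul]
    exact Submodule.smul_mem _ a hu

end descent

end Fermat.Agent.S19lib.G

end
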