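/-
S19lib / G / Main  (helper5, block FF-G)

**`DescentStmt`**: a Hopf order over `A0 = A^I` of `Map_I(Γ, ℚ̄)`, stable under the decomposition
group, descends to a Hopf order over `ℤ_(ℓ)` of `Map_{G_ℚ}(Γ, ℚ̄)`:
`H' := {φ ∈ H | φ is G_ℚ-equivariant}`.

Inputs (all three proved by the lead in `S19lib/Lead/`):
* `ADApproxStmt`  — `ℤ` is dense in `AD A` (`Lead/ADApprox.lean`);
* `GalBasisStmt`  — an injective `G_ℚ`-equivariant map `Γ → ℚ̄` (`Lead/GalBasis.lean`);
* `PurityStmt`    — coefficients of a rational relation between equivariant functions can be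
  taken in `ℤ_(ℓ)` (`Lead/Purity.lean`).

The only non-formal field is `comul`: `H = A0 • H'` by `mem_span_equivariant`
(`Coord.lean`, lattice descent), so `Δφ ∈ A0 • (H' ⊗ H')`, and purity replaces the coefficients by
elements of `ℤ_(ℓ)`.
-/
import Mathlib
import Fermat.Agent.S19lib.G.Coord

set_option autoImplicit false
set_option linter.style.haveILetI false

noncomputable section

namespace Fermat.Agent.S19lib.G

open Fermat.Agent.Helper5 Fermat.Agent.S56lib.TWSel Fermat.Agent.S19lib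
open scoped Pointwise

/-- **Input (GB)**: an injective equivariant map into `ℚ̄`. -/
def GalBasisStmt : Prop :=
  ∀ (J : Type) [AddCommGroup J] [DistribMulAction GQ J] (Γ : AddSubgroup J),
    IsFiniteGaloisSubmodule Γ →
    ∃ i : Γ → Qbar, Function.Injective i ∧
      ∀ (σ : GQ) (x y : Γ), (y : J) = σ • (x : J) → i y = σ (i x)

/-- **Input (P)**: purity of `ℤ_(ℓ)`-spans of equivariant functions. -/
def PurityStmt : Prop :=
  ∀ (ℓ : ℕ) [Fact ℓ.Prime] (Y : Type) [MulAction GQ Y] (B : Subring Qbar),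
    (∀ x ∈ B, (∀ σ : GQ, σ x = x) → x ∈ RQ ℓ) → RQ ℓ ≤ B →
    ∀ (m : ℕ) (t : Y → Qbar) (T : Fin m → Y → Qbar),
      (∀ (σ : GQ) (y : Y), t (σ • y) = σ (t y)) →
      (∀ (j : Fin m) (σ : GQ) (y : Y), T j (σ • y) = σ (T j y)) →
      ∀ b : Fin m → Qbar, (∀ j, b j ∈ B) → (∀ y, t y = ∑ j, b j * T j y) →
      ∃ b' : Fin m → Qbar, (∀ j, b' j ∈ RQ ℓ) ∧ ∀ y, t y = ∑ j, b' j * T j y

section

variable {J : Type} [AddCommGroup J] [DistribMulAction GQ J] (Γ : AddSubgroup J)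

/-- the Galois action on a stable subgroup -/
@[reducible] def galAct (hst : ∀ σ : GQ, ∀ x ∈ Γ, σ • x ∈ Γ) : MulAction GQ Γ where
  smul σ x := ⟨σ • (x : J), hst σ x x.2⟩
  one_smul x := Subtype.ext (one_smul GQ (x : J))
  mul_smul σ τ x := Subtype.ext (mul_smul σ τ (x : J))

end

/-- **FF-G**: `DescentStmt` from the three inputs. -/
theorem descentStmt_of (hApp : ADApproxStmt) (hGB : GalBasisStmt) (hP : PurityStmt) :
    DescentStmt := by
  intro ℓ _ A hA J _ _ Γ hΓ O hO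
  classical
  have hℓ : ℓ.Prime := Fact.out
  letI : MulAction GQ Γ := galAct Γ hΓ.stable
  have hfin : Finite Γ := hΓ.finite
  letI : Fintype Γ := Fintype.ofFinite Γ
  have hcoe : ∀ (σ : GQ) (x : Γ), ((σ • x : Γ) : J) = σ • (x : J) := fun _ _ => rfl
  have hsadd : ∀ (σ : GQ) (x y : Γ), σ • (x + y) = σ • x + σ • y := fun σ x y =>
    Subtype.ext (smul_add σ (x : J) (y : J))
  have hsneg : ∀ (σ : GQ) (x : Γ), σ • (-x) = -(σ • x) := fun σ x =>
    Subtype.ext (smul_neg σ (x : J))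
  -- the two forms of equivariance
  have heqv : ∀ (U : Subgroup GQ) (φ : Γ → Qbar),
      (∀ σ ∈ U, ∀ (x y : Γ), (y : J) = σ • (x : J) → φ y = σ (φ x)) ↔ IsEqv U φ := by
    intro U φ
    constructor
    · intro h σ hσ x
      exact h σ hσ x (σ • x) rfl
    · intro h σ hσ x y hxy
      have : y = σ • x := Subtype.ext hxy
      rw [this]
      exact h σ hσ x
  obtain ⟨i, hi, hiσ'⟩ := hGB J Γ hΓ
  have hiσ : ∀ (σ : GQ) (x : Γ), i (σ • x) = σ (i x) := fun σ x => hiσ' σ x (σ • x) rfl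
  -- `O.H` as an `A0`-submodule
  have hzero : (0 : Γ → Qbar) ∈ O.H := by
    have h1 := O.smul_mem 0 (A0 A).zero_mem _ O.one_mem
    have h2 : (fun x : Γ => (0 : Qbar) * (fun _ : Γ => (1 : Qbar)) x) = 0 := by
      funext x; simp
    rwa [h2] at h1
  let H : Submodule ↥(A0 A) (Γ → Qbar) :=
    { carrier := O.H
      add_mem' := fun {φ ψ} hφ hψ => O.add_mem φ hφ ψ hψ
      zero_mem' := hzero
      smul_mem' := fun a φ hφ => O.smul_mem (a : Qbar) a.2 φ hφ }
  have hHmem : ∀ φ, φ ∈ H ↔ φ ∈ O.H := fun _ => Iff.rfl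
  have hHI : ∀ φ ∈ H, IsEqv (IA A) φ := fun φ hφ => (heqv _ φ).1 (O.equivariant φ hφ)
  have hHD : ∀ σ ∈ DA A, ∀ φ ∈ H, star σ φ ∈ H := by
    intro σ hσ φ hφ
    refine hO σ hσ φ hφ (star σ φ) (fun x y hxy => ?_)
    have : y = σ • x := Subtype.ext hxy
    rw [this, star_apply, inv_smul_smul]
  have hfull : ∀ φ : Γ → Qbar, IsEqv ⊤ φ → ∃ n : ℕ, (((ℓ : ℕ) : Qbar) ^ n) • φ ∈ H := by
    intro φ hφ
    obtain ⟨n, hn⟩ := O.full φ ((heqv (IA A) φ).2 (fun σ _ x => hφ σ (Subgroup.mem_top σ) x))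
    exact ⟨n, hn⟩
  have hspan : ∀ φ ∈ O.H, φ ∈ Submodule.span ↥(A0 A) {f | f ∈ H ∧ IsEqv ⊤ f} :=
    fun φ hφ => mem_span_equivariant hApp hA hi hiσ H hHI hHD hfull hφ
  -- the descended order
  set H' : Set (Γ → Qbar) := {f | f ∈ O.H ∧ IsEqv ⊤ f} with hH'
  have hH'eq : {f | f ∈ H ∧ IsEqv ⊤ f} = H' := rfl
  -- tensor products of elements of the span
  set W : Submodule ↥(A0 A) (Γ × Γ → Qbar) := Submodule.span ↥(A0 A)
    {F | ∃ f f' : Γ → Qbar, f ∈ H' ∧ f' ∈ H' ∧ F = fun p => f p.1 * f' p.2} with hW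
  have htm1 : ∀ f' ∈ H', ∀ ψ ∈ Submodule.span ↥(A0 A) H',
      (fun p : Γ × Γ => ψ p.1 * f' p.2) ∈ W := by
    intro f' hf' ψ hψ
    refine Submodule.span_induction (p := fun ψ _ => (fun p : Γ × Γ => ψ p.1 * f' p.2) ∈ W)
      ?_ ?_ ?_ ?_ hψ
    · intro f hf
      exact Submodule.subset_span ⟨f, f', hf, hf', rfl⟩
    · have : (fun p : Γ × Γ => (0 : Γ → Qbar) p.1 * f' p.2) = 0 := by
        funext p; simp
      rw [this]
      exact W.zero_mem
    · intro u u' _ _ hu hu'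
      have : (fun p : Γ × Γ => (u + u') p.1 * f' p.2)
          = (fun p : Γ × Γ => u p.1 * f' p.2) + (fun p : Γ × Γ => u' p.1 * f' p.2) := by
        funext p; simp [add_mul]
      rw [this]
      exact W.add_mem hu hu'
    · intro a u _ hu
      have : (fun p : Γ × Γ => (a • u) p.1 * f' p.2)
          = a • (fun p : Γ × Γ => u p.1 * f' p.2) := by
        funext p
        change ((a : Qbar) * u p.1) * f' p.2 = (a : Qbar) * (u p.1 * f' p.2)
        ring
      rw [this]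
      exact W.smul_mem a hu
  have htm2 : ∀ ψ ∈ Submodule.span ↥(A0 A) H', ∀ ψ' ∈ Submodule.span ↥(A0 A) H',
      (fun p : Γ × Γ => ψ p.1 * ψ' p.2) ∈ W := by
    intro ψ hψ ψ' hψ'
    refine Submodule.span_induction (p := fun ψ' _ => (fun p : Γ × Γ => ψ p.1 * ψ' p.2) ∈ W)
      ?_ ?_ ?_ ?_ hψ'
    · intro f' hf'
      exact htm1 f' hf' ψ hψ
    · have : (fun p : Γ × Γ => ψ p.1 * (0 : Γ → Qbar) p.2) = 0 := by
        funext p; simp
      rw [this]
      exact W.zero_mem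
    · intro u u' _ _ hu hu'
      have : (fun p : Γ × Γ => ψ p.1 * (u + u') p.2)
          = (fun p : Γ × Γ => ψ p.1 * u p.2) + (fun p : Γ × Γ => ψ p.1 * u' p.2) := by
        funext p; simp [mul_add]
      rw [this]
      exact W.add_mem hu hu'
    · intro a u _ hu
      have : (fun p : Γ × Γ => ψ p.1 * (a • u) p.2)
          = a • (fun p : Γ × Γ => ψ p.1 * u p.2) := by
        funext p
        change ψ p.1 * ((a : Qbar) * u p.2) = (a : Qbar) * (ψ p.1 * u p.2)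
        ring
      rw [this]
      exact W.smul_mem a hu
  refine ⟨{
    H := H'
    one_mem := ⟨O.one_mem, fun σ _ x => (map_one σ).symm⟩
    add_mem := fun φ hφ ψ hψ => ⟨O.add_mem φ hφ.1 ψ hψ.1, fun σ hσ x => by
      change φ (σ • x) + ψ (σ • x) = σ (φ x + ψ x)
      rw [map_add, hφ.2 σ hσ x, hψ.2 σ hσ x]⟩
    mul_mem := fun φ hφ ψ hψ => ⟨O.mul_mem φ hφ.1 ψ hψ.1, fun σ hσ x => by
      change φ (σ • x) * ψ (σ • x) = σ (φ x * ψ x)
      rw [map_mul, hφ.2 σ hσ x, hψ.2 σ hσ x]⟩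
    smul_mem := fun r hr φ hφ => ⟨O.smul_mem r (RQ_le_A0 hℓ hA hr) φ hφ.1, fun σ hσ x => by
      change r * φ (σ • x) = σ (r * φ x)
      rw [map_mul, hφ.2 σ hσ x, RQ_fixed hr σ]⟩
    equivariant := fun φ hφ => (heqv ⊤ φ).2 hφ.2
    integral := fun φ hφ => O.integral φ hφ.1
    full := ?_
    comul := ?_
    antipode := fun φ hφ => ⟨O.antipode φ hφ.1, fun σ hσ x => by
      change φ (-(σ • x)) = σ (φ (-x))
      rw [← hsneg, hφ.2 σ hσ (-x)]⟩ }⟩
  · -- fullness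
    intro φ hφ
    have hφ' : IsEqv ⊤ φ := (heqv ⊤ φ).1 hφ
    obtain ⟨n, hn⟩ := hfull φ hφ'
    refine ⟨n, hn, fun σ hσ x => ?_⟩
    change ((ℓ : ℕ) : Qbar) ^ n * φ (σ • x) = σ (((ℓ : ℕ) : Qbar) ^ n * φ x)
    rw [map_mul, map_pow, map_natCast, hφ' σ hσ x]
  · -- comultiplication
    intro φ hφ
    obtain ⟨n0, ψ, ψ', hψ, hψ', hΔ⟩ := O.comul φ hφ.1
    have hΔW : (fun p : Γ × Γ => φ (p.1 + p.2)) ∈ W := by
      have : (fun p : Γ × Γ => φ (p.1 + p.2))
          = ∑ k : Fin n0, (fun p : Γ × Γ => ψ k p.1 * ψ' k p.2) := by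
        funext p
        rw [Finset.sum_apply]
        exact hΔ p.1 p.2
      rw [this]
      exact W.sum_mem fun k _ => htm2 _ (hspan _ (hψ k)) _ (hspan _ (hψ' k))
    obtain ⟨m, b, g, hsum⟩ := Submodule.mem_span_set'.1 hΔW
    choose f f' hf hf' hg using fun k => (g k).2
    have hrel : ∀ p : Γ × Γ, φ (p.1 + p.2) = ∑ k, (b k : Qbar) * (f k p.1 * f' k p.2) := by
      intro p
      have := congrFun hsum p
      rw [Finset.sum_apply] at this
      rw [← this]
      refine Finset.sum_congr rfl fun k _ => ?_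
      change (b k : Qbar) * (g k : Γ × Γ → Qbar) p = _
      rw [hg k]
    obtain ⟨b', hb', hfinal⟩ := hP ℓ (Γ × Γ) (A0 A)
      (fun x hx hfix => mem_RQ_of_fixed hℓ hA hx.1 hfix)
      (fun x hx => RQ_le_A0 hℓ hA hx) m
      (fun p => φ (p.1 + p.2)) (fun k p => f k p.1 * f' k p.2)
      (fun σ p => by
        change φ (σ • p.1 + σ • p.2) = σ (φ (p.1 + p.2))
        rw [← hsadd, hφ.2 σ (Subgroup.mem_top σ)])
      (fun k σ p => by
        change f k (σ • p.1) * f' k (σ • p.2) = σ (f k p.1 * f' k p.2)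
        rw [map_mul, (hf k).2 σ (Subgroup.mem_top σ), (hf' k).2 σ (Subgroup.mem_top σ)])
      (fun k => (b k : Qbar)) (fun k => (b k).2) hrel
    refine ⟨m, fun k x => b' k * f k x, fun k => f' k, fun k => ?_, fun k => hf' k, fun x y => ?_⟩
    · refine ⟨O.smul_mem _ (RQ_le_A0 hℓ hA (hb' k)) _ (hf k).1, fun σ hσ x => ?_⟩
      change b' k * f k (σ • x) = σ (b' k * f k x)
      rw [map_mul, (hf k).2 σ hσ x, RQ_fixed (hb' k) σ]
    · have := hfinal (x, y)
      rw [this]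
      refine Finset.sum_congr rfl fun k _ => ?_
      ring

end Fermat.Agent.S19lib.G

end
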