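/-
S19lib / G / Final  (helper5, block FF-G)

**`descentStmt : DescentStmt`** — unconditional: `descentStmt_of` (Main.lean) with the lead's three
inputs `Lead/ADApprox.lean`, `Lead/GalBasis.lean`, `Lead/Purity.lean` plugged in.
-/
import Mathlib
import Fermat.Agent.S19lib.G.Main
import Fermat.Agent.S19lib.Lead.ADApprox
import Fermat.Agent.S19lib.Lead.GalBasis
import Fermat.Agent.S19lib.Lead.Purity

set_option autoImplicit false

namespace Fermat.Agent.S19lib.G

open Fermat.Agent.Helper5 Fermat.Agent.S19lib

theorem aDApproxStmt : ADApproxStmt := fun _ _ _ hA _ hr n =>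
  Fermat.Agent.S19lib.Lead.exists_int_sub_eq Fact.out hA hr n

theorem galBasisStmt : GalBasisStmt := fun _ _ _ Γ h =>
  Fermat.Agent.S19lib.Lead.exists_equivariant_injective (Γ := Γ) h

theorem purityStmt : PurityStmt := fun ℓ _ _ _ B hB hRB _ t T ht hT b hb h =>
  Fermat.Agent.S19lib.Lead.purity ℓ B hB hRB t T ht hT b hb h

/-- **FF-G** modulo purity. -/
theorem descentStmt_of_purity (hP : PurityStmt) : DescentStmt :=
  descentStmt_of aDApproxStmt galBasisStmt hP

/-- **FF-G: descent `A0 → ℤ_(ℓ)` of Hopf orders.** -/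
theorem descentStmt : DescentStmt := descentStmt_of_purity purityStmt

end Fermat.Agent.S19lib.G
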